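import Fermat.Agent.LatticePolytopes.Diophantine
import Fermat.Agent.Perfect.SuccessiveMinima
import Mathlib.Analysis.Convex.Caratheodory
import Mathlib.Analysis.Convex.Topology
import Mathlib.Data.Int.Interval
import Mathlib.Data.Pi.Interval
import Mathlib.LinearAlgebra.AffineSpace.FiniteDimensional

/-!
# Interior integral points are not near the boundary

For a lattice polytope with at most `k` interior integral points, the barycentric coordinate of a
vertex at an interior integral point is bounded below, so the polytope is not too asymmetric.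
-/

set_option autoImplicit false

noncomputable section

open Matrix FA.Perfect

namespace FA.LatticePolytopes

variable {n : ℕ}

/-- The convex hull of finitely many integral points. -/
def poly (V : Finset (Fin n → ℤ)) : Set (Fin n → ℝ) := convexHull ℝ (castVec '' V)

/-- The interior integral points. -/
def interiorPts (V : Finset (Fin n → ℤ)) : Set (Fin n → ℤ) := {v | castVec v ∈ interior (poly V)}

/-- Hensley's constant. -/
def hensleyConst (n k : ℕ) : ℝ := gapSeq (n + 2) k (n + 2)

theorem hensleyConst_pos (n k : ℕ) : 0 < hensleyConst n k := gapSeq_pos (by omega) _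

theorem hensleyConst_le_one (n k : ℕ) : hensleyConst n k ≤ 1 := by
  refine (gapSeq_anti (by omega) (Nat.zero_le _)).trans ?_
  simp only [gapSeq]
  exact (div_le_one (by positivity)).2 (Nat.one_le_cast.2 (by omega))

theorem isCompact_poly (V : Finset (Fin n → ℤ)) : IsCompact (poly V) :=
  (V.finite_toSet.image castVec).isCompact_convexHull ℝ

theorem convex_poly (V : Finset (Fin n → ℤ)) : Convex ℝ (poly V) := convex_convexHull ℝ _

theorem finite_interiorPts (V : Finset (Fin n → ℤ)) : (interiorPts V).Finite := by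
  obtain ⟨R, hR⟩ := (isCompact_poly V).isBounded.exists_norm_le
  refine (Set.finite_Icc (fun _ : Fin n => -⌈R⌉) fun _ => ⌈R⌉).subset fun v hv => ?_
  have h : ∀ i, |(v i : ℝ)| ≤ ⌈R⌉ := fun i =>
    ((norm_le_pi_norm (castVec v) i).trans (hR _ (interior_subset hv))).trans (Int.le_ceil R)
  exact ⟨fun i => by exact_mod_cast (abs_le.1 (h i)).1,
    fun i => by exact_mod_cast (abs_le.1 (h i)).2⟩

theorem mem_of_positive {V : Finset (Fin n → ℤ)} {α : Type*} [Fintype α] {z : α → Fin n → ℝ}
    (hz : ∀ a, z a ∈ poly V) {γ : α → ℝ} (h0 : ∀ a, 0 ≤ γ a) (h1 : ∑ a, γ a = 1) :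
    ∑ a, γ a • z a ∈ poly V :=
  (convex_poly V).sum_mem (fun a _ => h0 a) h1 fun a _ => hz a

/-- **The coordinate of a vertex at an interior point is bounded below.** -/
theorem exists_extension {V : Finset (Fin n → ℤ)} {k : ℕ} (hk : (interiorPts V).ncard ≤ k)
    {x : Fin n → ℤ} (hx : x ∈ interiorPts V) {v : Fin n → ℤ} (hv : v ∈ V) :
    castVec x + hensleyConst n k • (castVec x - castVec v) ∈ poly V := by
  classical
  have hc0 := hensleyConst_pos n k
  have hxP : castVec x ∈ poly V := interior_subset hx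
  have hvP : castVec v ∈ poly V := subset_convexHull ℝ _ (Set.mem_image_of_mem _ hv)
  obtain ⟨u, hu⟩ : ∃ u, u = castVec x - castVec v := ⟨_, rfl⟩
  rw [← hu]
  rcases eq_or_ne u 0 with h0 | h0
  · rw [h0, smul_zero, add_zero]
    exact hxP
  obtain ⟨S, hS⟩ : ∃ S, S = {t : ℝ | 0 ≤ t ∧ castVec x + t • u ∈ poly V} := ⟨_, rfl⟩
  obtain ⟨R, hR⟩ := (isCompact_poly V).isBounded.exists_norm_le
  have hSc : IsCompact S := by
    refine (isCompact_Icc (a := (0 : ℝ)) (b := 2 * R / ‖u‖)).of_isClosed_subset ?_ ?_
    · rw [hS]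
      exact isClosed_Ici.inter ((isCompact_poly V).isClosed.preimage (by fun_prop))
    · rintro t ht
      rw [hS] at ht
      refine ⟨ht.1, ?_⟩
      rw [le_div_iff₀ (norm_pos_iff.2 h0)]
      calc t * ‖u‖ = ‖t • u‖ := by rw [norm_smul, Real.norm_of_nonneg ht.1]
        _ = ‖(castVec x + t • u) - castVec x‖ := by rw [add_sub_cancel_left]
        _ ≤ R + R := (norm_sub_le _ _).trans (add_le_add (hR _ ht.2) (hR _ hxP))
        _ = 2 * R := by ring
  obtain ⟨T, hT⟩ := hSc.exists_isGreatest ⟨0, by rw [hS]; exact ⟨le_rfl, by simpa using hxP⟩⟩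
  obtain ⟨⟨hT0, hTP⟩, hTmax⟩ : (0 ≤ T ∧ castVec x + T • u ∈ poly V) ∧
      ∀ t, 0 ≤ t → castVec x + t • u ∈ poly V → t ≤ T := by
    refine ⟨?_, fun t h1 h2 => hT.2 (hS ▸ ⟨h1, h2⟩)⟩
    have := hT.1
    rw [hS] at this
    exact this
  have hTpos : 0 < T := by
    obtain ⟨ε, hε, hball⟩ := Metric.mem_nhds_iff.1 (mem_interior_iff_mem_nhds.1 hx)
    have hpos : 0 < ‖u‖ := norm_pos_iff.2 h0
    refine lt_of_lt_of_le (by positivity : (0 : ℝ) < ε / (2 * ‖u‖))
      (hTmax _ (by positivity) (hball ?_))
    rw [Metric.mem_ball, dist_eq_norm, add_sub_cancel_left, norm_smul,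
      Real.norm_of_nonneg (by positivity), div_mul_eq_mul_div, div_lt_iff₀ (by positivity)]
    nlinarith
  by_cases hcT : hensleyConst n k ≤ T
  · have e : castVec x + hensleyConst n k • u = (1 - hensleyConst n k / T) • castVec x +
        (hensleyConst n k / T) • (castVec x + T • u) := by
      rw [smul_add, smul_smul, div_mul_cancel₀ _ hTpos.ne', ← add_assoc, ← add_smul]
      simp
    rw [e]
    exact convex_poly V hxP hTP (sub_nonneg.2 ((div_le_one hTpos).2 hcT)) (by positivity) (by ring)
  exfalso
  obtain ⟨ι, hι, z, w, hz, haff, hw0, hw1, hwy⟩ := eq_pos_convex_span_of_mem_convexHull hTP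
  have hzV : ∀ i, ∃ p ∈ V, castVec p = z i := fun i => hz (Set.mem_range_self i)
  choose p hp hpz using hzV
  obtain ⟨g, hg⟩ : ∃ g : Option ι → Fin n → ℤ, g = fun o => o.elim v p := ⟨_, rfl⟩
  have hgP : ∀ o, castVec (g o) ∈ poly V := fun o => by
    rw [hg]
    cases o with
    | none => exact hvP
    | some i => exact subset_convexHull ℝ _ (Set.mem_image_of_mem _ (hp i))
  obtain ⟨β, hβ⟩ : ∃ β : Option ι → ℝ,
      β = fun o => o.elim (T / (1 + T)) fun i => w i / (1 + T) := ⟨_, rfl⟩
  have hβ0 : ∀ o, 0 < β o := fun o => by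
    rw [hβ]
    cases o with
    | none => exact div_pos hTpos (by linarith)
    | some i => exact div_pos (hw0 i) (by linarith)
  have hβ1 : ∑ o, β o = 1 := by
    rw [hβ, Fintype.sum_option]
    simp only [Option.elim]
    rw [← Finset.sum_div, hw1, ← add_div, div_eq_one_iff_eq (by linarith)]
    ring
  have hβx : ∑ o, β o • castVec (g o) = castVec x := by
    rw [hβ, hg, Fintype.sum_option]
    simp only [Option.elim]
    have e : ∑ i, (w i / (1 + T)) • castVec (p i) = (1 + T)⁻¹ • (castVec x + T • u) := by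
      rw [← hwy, Finset.smul_sum]
      exact Finset.sum_congr rfl fun i _ => by rw [smul_smul, hpz, inv_mul_eq_div]
    rw [e, hu]
    funext j
    simp only [Pi.add_apply, Pi.smul_apply, Pi.sub_apply, smul_eq_mul]
    field_simp
    ring
  have hcard : Fintype.card (Option ι) ≤ n + 2 := by
    have h := haff.card_le_finrank_succ
    have h2 := Submodule.finrank_le (vectorSpan ℝ (Set.range z))
    rw [Module.finrank_fin_fun] at h2
    rw [Fintype.card_option]
    omega
  obtain ⟨q, m, hm, hne, hshift⟩ := exists_shift (k := k) hβ0 hβ1 hcard (i₁ := none) (by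
    rw [hβ]
    show T / (1 + T) < hensleyConst n k
    rw [div_lt_iff₀ (by linarith)]
    nlinarith [not_le.1 hcT])
  obtain ⟨D, hD⟩ : ∃ D, D = q • x - ∑ o, m o • g o := ⟨_, rfl⟩
  have hDr : castVec D = ∑ o, ((q : ℝ) * β o - m o) • castVec (g o) := by
    have e1 : castVec D = (q : ℝ) • castVec x - ∑ o, (m o : ℝ) • castVec (g o) := by
      funext j
      simp [hD, castVec, Finset.sum_apply]
    rw [e1, ← hβx, Finset.smul_sum, ← Finset.sum_sub_distrib]
    exact Finset.sum_congr rfl fun o _ => by rw [smul_smul, sub_smul]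
  have hδ : ∑ o, ((q : ℝ) * β o - m o) = 0 := by
    rw [Finset.sum_sub_distrib, ← Finset.mul_sum, hβ1, mul_one, ← Int.cast_sum, hm, sub_self]
  have hsum : ∀ r : ℝ, castVec x + r • castVec D =
      ∑ o, (β o + r * ((q : ℝ) * β o - m o)) • castVec (g o) := fun r => by
    rw [hDr, ← hβx, Finset.smul_sum, ← Finset.sum_add_distrib]
    exact Finset.sum_congr rfl fun o _ => by rw [smul_smul, add_smul]
  have hmem : ∀ r : ℝ, 0 ≤ r → r ≤ (k : ℝ) + 1 → castVec x + r • castVec D ∈ poly V :=
      fun r h1 h2 => by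
    rw [hsum r]
    refine mem_of_positive hgP (fun o => (hshift r h1 h2 o).le) ?_
    rw [Finset.sum_add_distrib, ← Finset.mul_sum, hδ, mul_zero, add_zero, hβ1]
  have hD0 : D ≠ 0 := fun h => by
    -- otherwise the ray could be prolonged
    have hzero : ∑ o, ((q : ℝ) * β o - m o) • castVec (g o) = 0 := by
      rw [← hDr, h]
      funext j
      simp [castVec]
    generalize hδn : (fun o => (q : ℝ) * β o - m o) = δ
    have hδo : ∀ o, (q : ℝ) * β o - m o = δ o := fun o => congrFun hδn o
    simp only [hδo] at hzero hδ hne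
    rw [Fintype.sum_option] at hzero hδ
    rw [hg] at hzero
    simp only [Option.elim] at hzero
    obtain ⟨c, hc⟩ : ∃ c : ι → ℝ, c = fun i => δ (some i) / δ none := ⟨_, rfl⟩
    have hc1 : ∑ i, c i = -1 := by
      rw [hc, ← Finset.sum_div, div_eq_iff hne]
      linarith
    have hcv : ∑ i, c i • z i = -castVec v := by
      have e : ∑ i, c i • z i = (δ none)⁻¹ • ∑ i, δ (some i) • castVec (p i) := by
        rw [Finset.smul_sum]
        exact Finset.sum_congr rfl fun i _ => by rw [smul_smul, hpz, hc, inv_mul_eq_div]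
      rw [e, eq_neg_of_add_eq_zero_right hzero, smul_neg, smul_smul, inv_mul_cancel₀ hne, one_smul]
    have hev : ∀ᶠ s in nhdsWithin (0 : ℝ) (Set.Ioi 0), ∀ i, 0 < (1 + s) * w i + s * c i := by
      refine nhdsWithin_le_nhds (Filter.eventually_all.2 fun i => ?_)
      have : Filter.Tendsto (fun s : ℝ => (1 + s) * w i + s * c i) (nhds 0) (nhds (w i)) :=
        ((by fun_prop : Continuous fun s : ℝ => (1 + s) * w i + s * c i).tendsto' 0 (w i) (by simp))
      exact this.eventually (eventually_gt_nhds (hw0 i))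
    obtain ⟨s, hs, hs0 : 0 < s⟩ := (hev.and self_mem_nhdsWithin).exists
    have hmem' : castVec x + (T + s * (1 + T)) • u ∈ poly V := by
      have e : castVec x + (T + s * (1 + T)) • u = ∑ i, ((1 + s) * w i + s * c i) • z i := by
        have e2 : ∑ i, ((1 + s) * w i + s * c i) • z i =
            (1 + s) • ∑ i, w i • z i + s • ∑ i, c i • z i := by
          simp only [Finset.smul_sum, ← Finset.sum_add_distrib, smul_smul, add_smul]
        rw [e2, hwy, hcv, hu]
        funext j
        simp only [Pi.add_apply, Pi.smul_apply, Pi.sub_apply, Pi.neg_apply, smul_eq_mul]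
        ring
      rw [e]
      refine mem_of_positive
        (fun i => hpz i ▸ subset_convexHull ℝ _ (Set.mem_image_of_mem _ (hp i)))
        (fun i => (hs i).le) ?_
      rw [Finset.sum_add_distrib, ← Finset.mul_sum, ← Finset.mul_sum, hw1, hc1]
      ring
    nlinarith [hTmax _ (by positivity) hmem']
  -- the new interior points
  have hint : ∀ j : ℕ, j ≤ k → x + (j : ℤ) • D ∈ interiorPts V := fun j hj => by
    show castVec (x + (j : ℤ) • D) ∈ interior (poly V)
    have e : castVec (x + (j : ℤ) • D) = castVec x + (j : ℝ) • castVec D := by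
      funext i
      simp [castVec]
    rw [e]
    rcases Nat.eq_zero_or_pos j with rfl | hj0
    · rw [Nat.cast_zero, zero_smul, add_zero]
      exact hx
    have hk1 : (j : ℝ) < (k : ℝ) + 1 := by exact_mod_cast Nat.lt_succ_of_le hj
    have hj' : (0 : ℝ) < j := Nat.cast_pos.2 hj0
    have hfar := hmem ((k : ℝ) + 1) (by positivity) le_rfl
    have h := (convex_poly V).combo_interior_self_mem_interior hx hfar
      (show 0 < 1 - (j : ℝ) / ((k : ℝ) + 1) by
        rw [sub_pos, div_lt_one (by positivity)]; exact hk1)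
      (show 0 ≤ (j : ℝ) / ((k : ℝ) + 1) by positivity) (by ring)
    convert h using 1
    rw [smul_add, smul_smul, div_mul_cancel₀ _ (by positivity : (k : ℝ) + 1 ≠ 0), ← add_assoc,
      ← add_smul]
    simp
  have hsub : (fun j : ℕ => x + (j : ℤ) • D) '' ↑(Finset.range (k + 1)) ⊆ interiorPts V := by
    rintro _ ⟨j, hj, rfl⟩
    exact hint j (Nat.lt_succ_iff.1 (Finset.mem_range.1 hj))
  have h := (Set.ncard_le_ncard hsub (finite_interiorPts V)).trans hk
  rw [Set.ncard_image_of_injective _ (fun a b hab => by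
      have := smul_left_injective ℤ hD0 (add_left_cancel hab)
      exact_mod_cast this), Set.ncard_coe_finset, Finset.card_range] at h
  omega

/-- **Hensley's asymmetry bound.** -/
theorem exists_reflected {V : Finset (Fin n → ℤ)} {k : ℕ} (hk : (interiorPts V).ncard ≤ k)
    {x : Fin n → ℤ} (hx : x ∈ interiorPts V) {y : Fin n → ℝ} (hy : y ∈ poly V) :
    castVec x + hensleyConst n k • (castVec x - y) ∈ poly V := by
  have hsub : poly V ⊆ {y | castVec x + hensleyConst n k • (castVec x - y) ∈ poly V} := by
    refine convexHull_min ?_ fun a ha b hb r s hr hs hrs => ?_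
    · rintro _ ⟨v, hv, rfl⟩
      exact exists_extension hk hx hv
    · show castVec x + hensleyConst n k • (castVec x - (r • a + s • b)) ∈ poly V
      have h := convex_poly V ha hb hr hs hrs
      convert h using 1
      funext j
      simp only [Pi.add_apply, Pi.smul_apply, Pi.sub_apply, smul_eq_mul]
      linear_combination -(castVec x j + hensleyConst n k * castVec x j) * hrs
  exact hsub hy

end FA.LatticePolytopes

end
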