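import Mathlib.Algebra.BigOperators.Fin
import Mathlib.Algebra.Order.Floor.Ring
import Mathlib.Data.Fintype.BigOperators
import Mathlib.Data.Real.Basic
import Mathlib.Tactic

/-!
# A Diophantine lemma for barycentric coordinates

If positive numbers with sum one have one of them very small, an integral shift moves them along a
line on which they stay positive for `k + 1` steps.
-/

set_option autoImplicit false

noncomputable section

namespace FA.LatticePolytopes

/-- The denominator bound below the size `a`. -/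
def steps (d k : ℕ) (a : ℝ) : ℕ := ⌈2 * (d : ℝ) * ((k : ℝ) + 2) / a⌉₊ + 1

/-- The next threshold below `a`. -/
def nextGap (d k : ℕ) (a : ℝ) : ℝ := min (a / 2) (1 / (2 * (d : ℝ) * (steps d k a : ℝ) ^ d))

/-- The thresholds. -/
def gapSeq (d k : ℕ) : ℕ → ℝ
  | 0 => 1 / d
  | i + 1 => nextGap d k (gapSeq d k i)

variable {d k : ℕ}

theorem gapSeq_pos (hd : 0 < d) : ∀ i, 0 < gapSeq d k i
  | 0 => by simp only [gapSeq]; positivity
  | i + 1 => by
    have := gapSeq_pos hd i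
    have : (0 : ℝ) < (steps d k (gapSeq d k i) : ℝ) := by
      exact_mod_cast Nat.succ_pos _
    simp only [gapSeq, nextGap]
    refine lt_min (by positivity) (by positivity)

theorem gapSeq_anti (hd : 0 < d) : Antitone (gapSeq d k) :=
  antitone_nat_of_succ_le fun i =>
    (min_le_left _ _).trans (by linarith [gapSeq_pos (k := k) hd i])

theorem exists_approximation {ι : Type*} [Fintype ι] (β : ι → ℝ) {N : ℕ} (hN : 0 < N) :
    ∃ q : ℕ, 1 ≤ q ∧ q ≤ N ^ Fintype.card ι ∧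
      ∃ m : ι → ℤ, ∀ i, |(q : ℝ) * β i - m i| < 1 / N := by
  classical
  have hN' : (0 : ℝ) < N := Nat.cast_pos.2 hN
  have hbd : ∀ x : ℝ, ⌊Int.fract x * N⌋₊ < N := fun x =>
    (Nat.floor_lt (mul_nonneg (Int.fract_nonneg _) hN'.le)).2
      (mul_lt_of_lt_one_left hN' (Int.fract_lt_one _))
  obtain ⟨a, ha, b, hb, hab, he⟩ := Finset.exists_ne_map_eq_of_card_lt_of_maps_to
    (s := Finset.range (N ^ Fintype.card ι + 1)) (t := (Finset.univ : Finset (ι → Fin N)))
    (f := fun q i => ⟨⌊Int.fract ((q : ℝ) * β i) * N⌋₊, hbd _⟩)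
    (by simp) fun _ _ => Finset.mem_univ _
  rw [Finset.mem_range] at ha hb
  have key : ∀ a b : ℕ, a < b → (∀ i, ⌊Int.fract ((a : ℝ) * β i) * N⌋₊ =
      ⌊Int.fract ((b : ℝ) * β i) * N⌋₊) → b ≤ N ^ Fintype.card ι → ∃ q : ℕ, 1 ≤ q ∧
      q ≤ N ^ Fintype.card ι ∧ ∃ m : ι → ℤ, ∀ i, |(q : ℝ) * β i - m i| < 1 / N := by
    intro a b hlt he hb
    refine ⟨b - a, by omega, by omega, fun i => ⌊(b : ℝ) * β i⌋ - ⌊(a : ℝ) * β i⌋, fun i => ?_⟩
    have h1 := Nat.floor_le (mul_nonneg (Int.fract_nonneg ((a : ℝ) * β i)) hN'.le)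
    have h2 := Nat.lt_floor_add_one (Int.fract ((a : ℝ) * β i) * N)
    have h3 := Nat.floor_le (mul_nonneg (Int.fract_nonneg ((b : ℝ) * β i)) hN'.le)
    have h4 := Nat.lt_floor_add_one (Int.fract ((b : ℝ) * β i) * N)
    rw [← he i] at h3 h4
    rw [Nat.cast_sub hlt.le, Int.cast_sub, show ((b : ℝ) - a) * β i -
        ((⌊(b : ℝ) * β i⌋ : ℝ) - ⌊(a : ℝ) * β i⌋) =
        Int.fract ((b : ℝ) * β i) - Int.fract ((a : ℝ) * β i) by
      rw [Int.fract, Int.fract]; ring, lt_div_iff₀ hN']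
    refine lt_of_eq_of_lt ((congrArg (_ * ·) (abs_of_pos hN').symm).trans (abs_mul _ _).symm) ?_
    rw [abs_lt, sub_mul]
    constructor <;> linarith
  have he' : ∀ i, ⌊Int.fract ((a : ℝ) * β i) * N⌋₊ = ⌊Int.fract ((b : ℝ) * β i) * N⌋₊ := fun i =>
    congrArg Fin.val (congrFun he i)
  rcases lt_or_gt_of_ne hab with h | h
  · exact key a b h he' (by omega)
  · exact key b a h (fun i => (he' i).symm) (by omega)

theorem exists_gap {ι : Type*} [Fintype ι] (β : ι → ℝ) (hd : Fintype.card ι ≤ d) {i₀ : ι}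
    (hmax : (1 : ℝ) / d ≤ β i₀) :
    ∃ l < d, ∀ i, gapSeq d k l ≤ β i ∨ β i < gapSeq d k (l + 1) := by
  classical
  by_contra! h
  choose g hg1 hg2 using h
  have hd0 : 0 < d := lt_of_lt_of_le (Fintype.card_pos_iff.2 ⟨i₀⟩) hd
  obtain ⟨a, ha, b, hb, hab, he⟩ := Finset.exists_ne_map_eq_of_card_lt_of_maps_to
    (s := (Finset.univ : Finset (Fin d))) (t := (Finset.univ : Finset ι).erase i₀)
    (f := fun l => g l.1 l.2) (by
      rw [Finset.card_erase_of_mem (Finset.mem_univ _), Finset.card_univ, Finset.card_univ,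
        Fintype.card_fin]
      omega)
    fun l _ => Finset.mem_erase.2 ⟨fun hl => (hg1 l.1 l.2).not_ge (by
      rw [show g l.1 l.2 = i₀ from hl]
      exact (gapSeq_anti hd0 (Nat.zero_le l.1)).trans hmax), Finset.mem_univ _⟩
  have key : ∀ a b : Fin d, a.1 < b.1 → g a.1 a.2 ≠ g b.1 b.2 := fun a b hlt he => by
    have h1 := hg2 a.1 a.2
    have h2 := hg1 b.1 b.2
    rw [he] at h1
    exact (h2.trans_le ((gapSeq_anti hd0 (Nat.succ_le_of_lt hlt)).trans h1)).false
  rcases lt_or_gt_of_ne (fun e => hab (Fin.ext e) : a.1 ≠ b.1) with h | h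
  · exact key a b h he
  · exact key b a h he.symm

/-- **The shift.** -/
theorem exists_shift {ι : Type*} [Fintype ι] {β : ι → ℝ} (hpos : ∀ i, 0 < β i)
    (hsum : ∑ i, β i = 1) (hd : Fintype.card ι ≤ d) {i₁ : ι} (hsmall : β i₁ < gapSeq d k d) :
    ∃ (q : ℤ) (m : ι → ℤ), ∑ i, m i = q ∧ (q : ℝ) * β i₁ - m i₁ ≠ 0 ∧
      ∀ r : ℝ, 0 ≤ r → r ≤ k + 1 → ∀ i, 0 < β i + r * ((q : ℝ) * β i - m i) := by
  classical
  have hne : (Finset.univ : Finset ι).Nonempty := ⟨i₁, Finset.mem_univ _⟩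
  have hd0 : 0 < d := lt_of_lt_of_le (Fintype.card_pos_iff.2 ⟨i₁⟩) hd
  obtain ⟨i₀, -, hi₀⟩ := Finset.exists_le_of_sum_le (f := fun _ => (1 : ℝ) / d) (g := β) hne (by
    rw [hsum, Finset.sum_const, Finset.card_univ, nsmul_eq_mul, mul_one_div,
      div_le_one (by exact_mod_cast hd0)]
    exact_mod_cast hd)
  obtain ⟨l, hl, hgap⟩ := exists_gap (k := k) β hd hi₀
  obtain ⟨a, ha⟩ : ∃ a, a = gapSeq d k l := ⟨_, rfl⟩
  have ha0 : 0 < a := ha ▸ gapSeq_pos hd0 l
  have hb : gapSeq d k (l + 1) = nextGap d k a := by rw [ha]; rfl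
  have hba : gapSeq d k (l + 1) < a := by
    rw [hb]
    exact (min_le_left _ _).trans_lt (by linarith)
  obtain ⟨N, hN⟩ : ∃ N, N = steps d k a := ⟨_, rfl⟩
  have hN0 : 0 < N := hN ▸ Nat.succ_pos _
  have hN' : (0 : ℝ) < N := Nat.cast_pos.2 hN0
  have hNa : 2 * (d : ℝ) * ((k : ℝ) + 2) / a < N := by
    rw [hN, steps, Nat.cast_succ]
    exact (Nat.le_ceil _).trans_lt (lt_add_one _)
  rw [div_lt_iff₀ ha0] at hNa
  obtain ⟨q, hq1, hqN, m, hm⟩ :=
    exists_approximation (fun i => if a ≤ β i then β i else 0) hN0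
  have hd1 : (1 : ℝ) ≤ d := Nat.one_le_cast.2 hd0
  have hk0 : (0 : ℝ) ≤ k := k.cast_nonneg
  have ha1 : a ≤ 1 := by
    rw [ha]
    refine (gapSeq_anti hd0 (Nat.zero_le l)).trans ?_
    simp only [gapSeq]
    exact (div_le_one (by linarith)).2 hd1
  have hN1 : 2 * (d : ℝ) ≤ N := by nlinarith
  have hcase : ∀ i, (a ≤ β i ∧ |(q : ℝ) * β i - m i| < 1 / N) ∨
      (β i < gapSeq d k (l + 1) ∧ m i = 0) := fun i => by
    rcases hgap i with h | h
    · rw [← ha] at h
      have h' := hm i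
      rw [if_pos h] at h'
      exact Or.inl ⟨h, h'⟩
    · refine Or.inr ⟨h, ?_⟩
      have h' := hm i
      rw [if_neg (by linarith), mul_zero, zero_sub, abs_neg] at h'
      have h'' : |(m i : ℝ)| < 1 :=
        h'.trans_le ((div_le_one hN').2 (Nat.one_le_cast.2 hN0))
      exact Int.abs_lt_one_iff.1 (by exact_mod_cast h'')
  have hqd : (q : ℝ) ≤ (N : ℝ) ^ d := by
    refine le_trans ?_ (pow_le_pow_right₀ (Nat.one_le_cast.2 hN0) hd)
    exact_mod_cast hqN
  have hterm : ∀ i, |(q : ℝ) * β i - m i| < 1 / d := fun i => by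
    rcases hcase i with ⟨-, h⟩ | ⟨h, h0⟩
    · exact h.trans_le (one_div_le_one_div_of_le (by linarith) (by linarith))
    · rw [h0, Int.cast_zero, sub_zero, abs_of_nonneg (mul_nonneg q.cast_nonneg (hpos i).le)]
      have h2 : β i < 1 / (2 * (d : ℝ) * (N : ℝ) ^ d) := by
        rw [hb, nextGap, ← hN] at h
        exact h.trans_le (min_le_right _ _)
      rw [lt_div_iff₀ (by positivity)] at h2 ⊢
      nlinarith [mul_le_mul_of_nonneg_left hqd (hpos i).le]
  have hzero : ∑ i, m i = (q : ℤ) := by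
    have h1 : |(q : ℝ) - ((∑ i, m i : ℤ) : ℝ)| < 1 := by
      have e : (q : ℝ) - ((∑ i, m i : ℤ) : ℝ) = ∑ i, ((q : ℝ) * β i - m i) := by
        rw [Finset.sum_sub_distrib, ← Finset.mul_sum, hsum, mul_one, Int.cast_sum]
      rw [e]
      refine (Finset.abs_sum_le_sum_abs _ _).trans_lt ((Finset.sum_lt_sum_of_nonempty hne
        fun i _ => hterm i).trans_le ?_)
      rw [Finset.sum_const, Finset.card_univ, nsmul_eq_mul, mul_one_div,
        div_le_one (by linarith)]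
      exact_mod_cast hd
    have h2 : |((q : ℤ) - ∑ i, m i : ℤ)| < 1 := by exact_mod_cast h1
    linarith [Int.abs_lt_one_iff.1 h2]
  refine ⟨q, m, hzero, ?_, fun r hr hrk i => ?_⟩
  · rcases hcase i₁ with ⟨h, -⟩ | ⟨-, h0⟩
    · linarith [gapSeq_anti (k := k) hd0 hl.le, ha ▸ h]
    · rw [h0, Int.cast_zero, sub_zero]
      have : (0 : ℝ) < q := Nat.cast_pos.2 hq1
      push_cast
      exact (mul_pos this (hpos i₁)).ne'
  · push_cast
    rcases hcase i with ⟨h, h1⟩ | ⟨-, h0⟩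
    · have h2 := (abs_lt.1 h1).1
      have h3 : r * (1 / N) < a := by
        rw [mul_one_div, div_lt_iff₀ hN']
        nlinarith
      nlinarith
    · rw [h0, Int.cast_zero, sub_zero]
      have := hpos i
      positivity

end FA.LatticePolytopes

end
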