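import Fermat.Agent.LatticePolytopes.Asymmetry
import Mathlib.LinearAlgebra.Matrix.Adjugate
import Mathlib.LinearAlgebra.Matrix.NonsingularInverse
import Mathlib.MeasureTheory.Measure.Lebesgue.EqHaar

/-!
# Lattice polytopes of bounded volume

The vertices in the basis of a simplex of largest determinant have bounded numerators, and with the
determinant and a congruence datum they determine the polytope up to unimodular equivalence.
-/

set_option autoImplicit false

noncomputable section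

open Matrix MeasureTheory FA.Perfect

namespace FA.LatticePolytopes

variable {n : ℕ}

/-- The edges from `v₀`, as columns. -/
def edgeMatrix (v₀ : Fin n → ℤ) (f : Fin n → Fin n → ℤ) : Matrix (Fin n) (Fin n) ℤ :=
  Matrix.of fun r i => f i r - v₀ r

theorem exists_base {V : Finset (Fin n → ℤ)} (hV : (interior (poly V)).Nonempty) :
    ∃ v₀ ∈ V, ∃ f : Fin n → Fin n → ℤ, (∀ i, f i ∈ V) ∧ (edgeMatrix v₀ f).det ≠ 0 := by
  classical
  obtain ⟨y, hy⟩ := hV
  obtain ⟨_, v₀, hv₀, rfl⟩ : (castVec '' (V : Set (Fin n → ℤ))).Nonempty :=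
    convexHull_nonempty_iff.1 ⟨y, interior_subset hy⟩
  refine ⟨v₀, hv₀, ?_⟩
  obtain ⟨s, hs⟩ : ∃ s : Set (Fin n → ℝ),
      s = (fun v => castVec v - castVec v₀) '' (V : Set (Fin n → ℤ)) := ⟨_, rfl⟩
  have htop : Submodule.span ℝ s = ⊤ := by
    have hsub : ∀ a ∈ poly V, a - castVec v₀ ∈ Submodule.span ℝ s := fun a ha => by
      have h : poly V ⊆ {a | a - castVec v₀ ∈ Submodule.span ℝ s} := by
        refine convexHull_min ?_ fun a ha b hb r t _ _ hrt => ?_
        · rintro _ ⟨v, hv, rfl⟩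
          exact Submodule.subset_span (hs ▸ ⟨v, hv, rfl⟩)
        · show r • a + t • b - castVec v₀ ∈ Submodule.span ℝ s
          have e : r • a + t • b - castVec v₀ =
              r • (a - castVec v₀) + t • (b - castVec v₀) := by
            funext j
            simp only [Pi.add_apply, Pi.smul_apply, Pi.sub_apply, smul_eq_mul]
            linear_combination (castVec v₀ j) * hrt
          rw [e]
          exact add_mem (Submodule.smul_mem _ r ha) (Submodule.smul_mem _ t hb)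
      exact h ha
    refine eq_top_iff.2 fun u _ => ?_
    obtain ⟨ε, hε, hball⟩ := Metric.mem_nhds_iff.1 (mem_interior_iff_mem_nhds.1 hy)
    rcases eq_or_ne u 0 with rfl | hu
    · exact zero_mem _
    have hpos : 0 < ‖u‖ := norm_pos_iff.2 hu
    have h1 := hsub _ (hball (show y + (ε / (2 * ‖u‖)) • u ∈ Metric.ball y ε by
      rw [Metric.mem_ball, dist_eq_norm, add_sub_cancel_left, norm_smul,
        Real.norm_of_nonneg (by positivity), div_mul_eq_mul_div, div_lt_iff₀ (by positivity)]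
      nlinarith))
    have h2 := hsub _ (interior_subset hy)
    have h3 := Submodule.smul_mem _ (ε / (2 * ‖u‖))⁻¹ (sub_mem h1 h2)
    rwa [sub_sub_sub_cancel_right, add_sub_cancel_left, smul_smul,
      inv_mul_cancel₀ (by positivity), one_smul] at h3
  obtain ⟨b, hbs, hspan, hli⟩ := exists_linearIndependent ℝ s
  let B : Module.Basis b ℝ (Fin n → ℝ) := Module.Basis.mk hli (by
    rw [Subtype.range_coe_subtype, Set.ofPred_mem_eq, hspan, htop])
  have : Fintype b := FiniteDimensional.fintypeBasisIndex B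
  let e : b ≃ Fin n := Fintype.equivFinOfCardEq (by
    rw [← Module.finrank_eq_card_basis B, Module.finrank_fin_fun])
  have hmem : ∀ i, ∃ v ∈ V, castVec v - castVec v₀ = B.reindex e i := fun i => by
    rw [Module.Basis.reindex_apply, Module.Basis.mk_apply]
    have h : ((e.symm i : b) : Fin n → ℝ) ∈ s := hbs (e.symm i).2
    rw [hs] at h
    exact h
  choose f hfV hf using hmem
  refine ⟨f, hfV, fun h0 => ?_⟩
  have hd : ((Pi.basisFun ℝ (Fin n)).toMatrix (B.reindex e)).det ≠ 0 := by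
    rw [← Module.Basis.det_apply]
    exact ((Pi.basisFun ℝ (Fin n)).isUnit_det (B.reindex e)).ne_zero
  refine hd ?_
  have hmat : (Pi.basisFun ℝ (Fin n)).toMatrix (B.reindex e) =
      (edgeMatrix v₀ f).map (Int.cast : ℤ → ℝ) := by
    ext r i
    rw [Module.Basis.toMatrix_apply, ← hf i]
    simp [edgeMatrix, castVec]
  rw [hmat]
  show ((Int.castRingHom ℝ).mapMatrix (edgeMatrix v₀ f)).det = 0
  rw [← RingHom.map_det, h0, map_zero]

theorem abs_det_le {V : Finset (Fin n → ℤ)} {v₀ : Fin n → ℤ} (hv₀ : v₀ ∈ V)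
    {f : Fin n → Fin n → ℤ} (hf : ∀ i, f i ∈ V) :
    |((edgeMatrix v₀ f).det : ℝ)| ≤ volume.real (poly V) * (n : ℝ) ^ n := by
  classical
  obtain ⟨A, hA⟩ : ∃ A, A = (edgeMatrix v₀ f).map (Int.cast : ℤ → ℝ) := ⟨_, rfl⟩
  obtain ⟨box, hbox⟩ : ∃ box : Set (Fin n → ℝ), box = Set.Icc 0 (fun _ => (n : ℝ)⁻¹) := ⟨_, rfl⟩
  have hsub : (fun a => a + castVec v₀) '' (Matrix.toLin' A '' box) ⊆ poly V := by
    rintro _ ⟨_, ⟨t, ht, rfl⟩, rfl⟩
    rw [hbox] at ht
    have hsum : ∑ i, t i ≤ 1 := by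
      refine (Finset.sum_le_sum fun i _ => ht.2 i).trans ?_
      rw [Finset.sum_const, Finset.card_univ, Fintype.card_fin, nsmul_eq_mul]
      rcases Nat.eq_zero_or_pos n with rfl | hn
      · simp
      · rw [mul_inv_cancel₀ (Nat.cast_ne_zero.2 hn.ne')]
    have h := (convex_poly V).sum_mem (t := Finset.univ)
      (w := fun o : Option (Fin n) => o.elim (1 - ∑ i, t i) t)
      (z := fun o => castVec (o.elim v₀ f))
      (fun o _ => by
        cases o with
        | none => exact sub_nonneg.2 hsum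
        | some i => exact ht.1 i)
      (by rw [Fintype.sum_option]; simp [Option.elim])
      fun o _ => subset_convexHull ℝ _ (Set.mem_image_of_mem _ (by
        cases o with
        | none => exact hv₀
        | some i => exact hf i))
    convert h using 1
    rw [Fintype.sum_option]
    funext r
    simp only [Option.elim, Matrix.toLin'_apply, hA, mulVec, dotProduct, Pi.add_apply,
      Finset.sum_apply, Pi.smul_apply, smul_eq_mul, Matrix.map_apply, edgeMatrix, Matrix.of_apply,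
      castVec, Int.cast_sub, sub_mul, Finset.sum_sub_distrib, one_mul, Finset.sum_mul]
    simp only [mul_comm ((f _ r : ℝ)), mul_comm ((v₀ r : ℝ)), ← Finset.sum_mul]
    ring
  have h := measureReal_mono (μ := volume) hsub (isCompact_poly V).measure_ne_top
  have himg : volume ((fun a => a + castVec v₀) '' (Matrix.toLin' A '' box)) =
      ENNReal.ofReal |A.det| * ENNReal.ofReal ((n : ℝ)⁻¹ ^ n) := by
    rw [Set.image_add_right, measure_preimage_add_right, Measure.addHaar_image_linearMap,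
      LinearMap.det_toLin', hbox, Real.volume_Icc_pi]
    simp
    rw [← ENNReal.ofReal_pow (by positivity), inv_pow]
  rw [measureReal_def, himg, ENNReal.toReal_mul, ENNReal.toReal_ofReal (abs_nonneg _),
    ENNReal.toReal_ofReal (by positivity)] at h
  have hdet : A.det = ((edgeMatrix v₀ f).det : ℝ) := by
    rw [hA]
    show ((Int.castRingHom ℝ).mapMatrix (edgeMatrix v₀ f)).det = _
    rw [← RingHom.map_det]
    rfl
  rw [hdet, inv_pow, ← div_eq_mul_inv, div_le_iff₀] at h
  · exact h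
  · rcases Nat.eq_zero_or_pos n with rfl | hn
    · simp
    · positivity

/-- Bounded integral vectors. -/
def intBox (n : ℕ) (D : ℕ) : Finset (Fin n → ℤ) := Finset.Icc (fun _ => -(D : ℤ)) fun _ => (D : ℤ)

theorem mem_intBox {D : ℕ} {z : Fin n → ℤ} : z ∈ intBox n D ↔ ∀ i, |z i| ≤ D := by
  simp [intBox, abs_le, Pi.le_def, forall_and]

/-- The invariant of a polytope with a chosen base. -/
def datum (D : ℕ) (V : Finset (Fin n → ℤ)) (v₀ : Fin n → ℤ) (f : Fin n → Fin n → ℤ) :
    ℤ × Finset (Fin n → ℤ) × Finset (Fin n → ℤ) :=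
  open scoped Classical in
  ((edgeMatrix v₀ f).det,
    (intBox n D).filter fun z => ∃ y, ∀ i,
      ((edgeMatrix v₀ f).adjugate *ᵥ y) i % (edgeMatrix v₀ f).det = z i,
    V.image fun v => (edgeMatrix v₀ f).adjugate *ᵥ (v - v₀))

theorem exists_divide {D : ℕ} {M M' : Matrix (Fin n) (Fin n) ℤ} (hM : M'.det = M.det)
    (h0 : M.det ≠ 0) (hD : M.det.natAbs ≤ D)
    (h : ∀ z ∈ intBox n D, (∃ y, ∀ i, (M.adjugate *ᵥ y) i % M.det = z i) →
      ∃ y, ∀ i, (M'.adjugate *ᵥ y) i % M.det = z i) :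
    ∃ U : Matrix (Fin n) (Fin n) ℤ, M' * M.adjugate = M.det • U := by
  have key : ∀ y, ∃ u, M' *ᵥ (M.adjugate *ᵥ y) = M.det • u := fun y => by
    obtain ⟨y', hy'⟩ := h (fun i => (M.adjugate *ᵥ y) i % M.det) (mem_intBox.2 fun i => by
      rw [abs_of_nonneg (Int.emod_nonneg _ h0)]
      have := Int.emod_lt_abs ((M.adjugate *ᵥ y) i) h0
      have hD' : (M.det.natAbs : ℤ) ≤ D := by exact_mod_cast hD
      rw [Int.natCast_natAbs] at hD'
      linarith) ⟨y, fun _ => rfl⟩
    obtain ⟨r, hr⟩ : ∃ r : Fin n → ℤ, M.adjugate *ᵥ y = M'.adjugate *ᵥ y' + M.det • r := by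
      refine ⟨fun i => ((M.adjugate *ᵥ y) i - (M'.adjugate *ᵥ y') i) / M.det, funext fun i => ?_⟩
      have h1 : M.det ∣ (M.adjugate *ᵥ y) i - (M'.adjugate *ᵥ y') i :=
        Int.dvd_of_emod_eq_zero (by rw [Int.sub_emod, hy' i, sub_self, Int.zero_emod])
      rw [Pi.add_apply, Pi.smul_apply, smul_eq_mul, Int.mul_ediv_cancel' h1]
      ring
    refine ⟨y' + M' *ᵥ r, ?_⟩
    rw [hr, mulVec_add, mulVec_mulVec, mul_adjugate, hM, smul_mulVec, one_mulVec, mulVec_smul,
      smul_add]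
  choose u hu using key
  refine ⟨Matrix.of fun r j => u (Pi.single j 1) r, Matrix.ext fun r j => ?_⟩
  have h1 := congrFun (hu (Pi.single j 1)) r
  rw [mulVec_mulVec, mulVec_single_one] at h1
  simpa using h1

/-- Equal data give equivalent polytopes. -/
theorem exists_equiv {D : ℕ} {V V' : Finset (Fin n → ℤ)} {v₀ v₀' : Fin n → ℤ}
    {f f' : Fin n → Fin n → ℤ} (h0 : (edgeMatrix v₀ f).det ≠ 0)
    (hD : (edgeMatrix v₀ f).det.natAbs ≤ D) (h : datum D V v₀ f = datum D V' v₀' f') :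
    ∃ U : Matrix (Fin n) (Fin n) ℤ, IsUnit U.det ∧ ∃ t, V' = V.image fun v => U *ᵥ v + t := by
  classical
  simp only [datum, Prod.mk.injEq] at h
  obtain ⟨M, hM⟩ : ∃ M, M = edgeMatrix v₀ f := ⟨_, rfl⟩
  obtain ⟨M', hM'⟩ : ∃ M', M' = edgeMatrix v₀' f' := ⟨_, rfl⟩
  rw [← hM, ← hM'] at h
  rw [← hM] at h0 hD
  obtain ⟨hdet, hK, hT⟩ := h
  obtain ⟨U, hU⟩ := exists_divide hdet.symm h0 hD fun z hz hy => by
    have h1 : z ∈ (intBox n D).filter fun z => ∃ y, ∀ i, (M.adjugate *ᵥ y) i % M.det = z i :=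
      Finset.mem_filter.2 ⟨hz, hy⟩
    rw [hK, ← hdet] at h1
    exact (Finset.mem_filter.1 h1).2
  obtain ⟨U', hU'⟩ := exists_divide hdet (hdet ▸ h0) (hdet ▸ hD) fun z hz hy => by
    have h1 : z ∈ (intBox n D).filter fun z => ∃ y, ∀ i, (M'.adjugate *ᵥ y) i % M'.det = z i :=
      Finset.mem_filter.2 ⟨hz, hy⟩
    rw [← hK] at h1
    rw [← hdet]
    exact (Finset.mem_filter.1 h1).2
  rw [← hdet] at hU'
  have hUU : U * U' = 1 := by
    have e : M' * M.adjugate * (M * M'.adjugate) = M.det ^ 2 • (1 : Matrix (Fin n) (Fin n) ℤ) := by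
      rw [Matrix.mul_assoc M', ← Matrix.mul_assoc M.adjugate, adjugate_mul, Matrix.smul_mul,
        Matrix.one_mul, Matrix.mul_smul, mul_adjugate, ← hdet, smul_smul, sq]
    rw [hU, hU', Matrix.smul_mul, Matrix.mul_smul, smul_smul, ← sq] at e
    exact smul_right_injective _ (pow_ne_zero 2 h0) e
  refine ⟨U, Matrix.isUnit_det_of_right_inverse hUU, v₀' - U *ᵥ v₀, ?_⟩
  have key : ∀ v v', M.adjugate *ᵥ (v - v₀) = M'.adjugate *ᵥ (v' - v₀') →
      U *ᵥ v + (v₀' - U *ᵥ v₀) = v' := fun v v' h1 => by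
    have h2 := congrArg (fun a => M' *ᵥ a) h1
    simp only [mulVec_mulVec, hU, mul_adjugate, ← hdet, smul_mulVec, one_mulVec] at h2
    have h3 : U *ᵥ (v - v₀) = v' - v₀' := smul_right_injective _ h0 h2
    rw [mulVec_sub] at h3
    rw [← sub_add_cancel v' v₀', ← h3]
    abel
  ext a
  constructor
  · intro ha
    have h1 : M'.adjugate *ᵥ (a - v₀') ∈ V.image fun v => M.adjugate *ᵥ (v - v₀) := by
      rw [hT]
      exact Finset.mem_image_of_mem _ ha
    obtain ⟨v, hv, h2⟩ := Finset.mem_image.1 h1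
    exact Finset.mem_image.2 ⟨v, hv, key v a h2⟩
  · intro ha
    obtain ⟨v, hv, rfl⟩ := Finset.mem_image.1 ha
    have h1 : M.adjugate *ᵥ (v - v₀) ∈ V'.image fun w => M'.adjugate *ᵥ (w - v₀') := by
      rw [← hT]
      exact Finset.mem_image_of_mem (fun v => M.adjugate *ᵥ (v - v₀)) hv
    obtain ⟨w, hw, h2⟩ := Finset.mem_image.1 h1
    rw [key v w h2.symm]
    exact hw

/-- A base of largest determinant keeps all vertices bounded. -/
theorem exists_good_base {V : Finset (Fin n → ℤ)} (hV : (interior (poly V)).Nonempty) :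
    ∃ v₀ ∈ V, ∃ f : Fin n → Fin n → ℤ, (∀ i, f i ∈ V) ∧ (edgeMatrix v₀ f).det ≠ 0 ∧
      ∀ v ∈ V, ∀ i, |((edgeMatrix v₀ f).adjugate *ᵥ (v - v₀)) i| ≤ |(edgeMatrix v₀ f).det| := by
  classical
  obtain ⟨v₀, hv₀, g, hg, hgdet⟩ := exists_base hV
  obtain ⟨f, hf, hmax⟩ := (Fintype.piFinset fun _ : Fin n => V).exists_max_image
    (fun f => |(edgeMatrix v₀ f).det|) ⟨g, Fintype.mem_piFinset.2 hg⟩
  rw [Fintype.mem_piFinset] at hf
  refine ⟨v₀, hv₀, f, hf, fun h0 => ?_, fun v hv i => ?_⟩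
  · have h1 := hmax g (Fintype.mem_piFinset.2 hg)
    rw [h0, abs_zero] at h1
    exact hgdet (abs_nonpos_iff.1 h1)
  · rw [← cramer_eq_adjugate_mulVec, cramer_apply]
    have e : (edgeMatrix v₀ f).updateCol i (v - v₀) = edgeMatrix v₀ (Function.update f i v) := by
      ext r j
      rcases eq_or_ne j i with rfl | hj
      · simp [edgeMatrix]
      · simp [edgeMatrix, hj]
    rw [e]
    refine hmax _ (Fintype.mem_piFinset.2 fun j => ?_)
    rcases eq_or_ne j i with rfl | hj
    · rwa [Function.update_self]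
    · rw [Function.update_of_ne hj]
      exact hf j

/-- **Finitely many polytopes of bounded volume.** -/
theorem exists_representatives (B : ℝ) :
    ∃ R : Set (Finset (Fin n → ℤ)), R.Finite ∧ ∀ V : Finset (Fin n → ℤ),
      (interior (poly V)).Nonempty → volume.real (poly V) ≤ B →
        ∃ W ∈ R, ∃ U : Matrix (Fin n) (Fin n) ℤ, IsUnit U.det ∧
          ∃ t, V = W.image fun w => U *ᵥ w + t := by
  classical
  obtain ⟨D, hD⟩ : ∃ D : ℕ, D = ⌊B * (n : ℝ) ^ n⌋₊ := ⟨_, rfl⟩
  obtain ⟨G, hG⟩ : ∃ G, G = {V : Finset (Fin n → ℤ) |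
      (interior (poly V)).Nonempty ∧ volume.real (poly V) ≤ B} := ⟨_, rfl⟩
  choose v₀ hv₀ f hf hdet hbd using fun V : G =>
    exists_good_base (V := V.1) (hG ▸ V.2 : V.1 ∈ {V : Finset (Fin n → ℤ) |
      (interior (poly V)).Nonempty ∧ volume.real (poly V) ≤ B}).1
  have hdD : ∀ V : G, (edgeMatrix (v₀ V) (f V)).det.natAbs ≤ D := fun V => by
    have hV : V.1 ∈ {V : Finset (Fin n → ℤ) | (interior (poly V)).Nonempty ∧
        volume.real (poly V) ≤ B} := hG ▸ V.2
    rw [hD]
    refine Nat.le_floor ?_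
    rw [Nat.cast_natAbs, Int.cast_abs]
    exact (abs_det_le (hv₀ V) (hf V)).trans (mul_le_mul_of_nonneg_right hV.2 (by positivity))
  obtain ⟨d, hd⟩ : ∃ d : G → ℤ × Finset (Fin n → ℤ) × Finset (Fin n → ℤ),
      d = fun V => datum D V.1 (v₀ V) (f V) := ⟨_, rfl⟩
  have hfin : (Set.range d).Finite := by
    refine ((Finset.Icc (-(D : ℤ)) D) ×ˢ (intBox n D).powerset ×ˢ
      (intBox n D).powerset).finite_toSet.subset ?_
    rintro _ ⟨V, rfl⟩
    have hDet : |(edgeMatrix (v₀ V) (f V)).det| ≤ (D : ℤ) := by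
      rw [← Int.natCast_natAbs]
      exact_mod_cast hdD V
    simp only [hd, datum, Finset.coe_product, Set.mem_prod, Finset.mem_coe, Finset.mem_Icc,
      Finset.mem_powerset]
    refine ⟨abs_le.1 hDet, Finset.filter_subset _ _, ?_⟩
    intro z hz
    obtain ⟨v, hv, rfl⟩ := Finset.mem_image.1 hz
    exact mem_intBox.2 fun i => (hbd V v hv i).trans hDet
  choose r hr using fun y : Set.range d => y.2
  have : Finite (Set.range d) := hfin.to_subtype
  refine ⟨Set.range fun y => (r y).1, Set.finite_range _, fun V h1 h2 => ?_⟩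
  obtain ⟨V', hV'⟩ : ∃ V' : G, V'.1 = V := ⟨⟨V, by rw [hG]; exact ⟨h1, h2⟩⟩, rfl⟩
  obtain ⟨W, hW⟩ : ∃ W : G, W = r ⟨d V', Set.mem_range_self _⟩ := ⟨_, rfl⟩
  refine ⟨W.1, ⟨⟨d V', Set.mem_range_self _⟩, by rw [hW]⟩, ?_⟩
  have he : d W = d V' := by
    rw [hW]
    exact hr _
  rw [hd] at he
  rw [← hV']
  exact exists_equiv (hdet W) (hdD W) he

end FA.LatticePolytopes

end
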