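import Fermat.Agent.LatticePolytopes.Asymmetry
import Fermat.Agent.Root.SummaryMinkowskiHlawka
import Mathlib.Analysis.Convex.Measure

/-!
# The volume of a lattice polytope with few interior integral points

Its intersection with the reflection at an interior point contains a fixed multiple of it, and by
Minkowski has volume at most `(2 k) ^ n`.
-/

set_option autoImplicit false

noncomputable section

open Matrix MeasureTheory FA.Perfect
open scoped Pointwise

namespace FA.LatticePolytopes

variable {n : ℕ}

theorem volume_le {k : ℕ} {V : Finset (Fin n → ℤ)} (hne : (interiorPts V).Nonempty)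
    (hk : (interiorPts V).ncard ≤ k) :
    volume.real (poly V) ≤ (2 * (k : ℝ) / hensleyConst n k) ^ n := by
  obtain ⟨x, hx⟩ := hne
  have hk0 : 0 < k := lt_of_lt_of_le ((Set.ncard_pos (finite_interiorPts V)).2 ⟨x, hx⟩) hk
  have hk' : (0 : ℝ) < k := Nat.cast_pos.2 hk0
  have hc := hensleyConst_pos n k
  obtain ⟨S, hS⟩ : ∃ S, S = {z | castVec x + z ∈ poly V ∧ castVec x - z ∈ poly V} := ⟨_, rfl⟩
  have hSc : Convex ℝ S := by
    rw [hS]
    intro a ha b hb r s hr hs hrs
    refine ⟨?_, ?_⟩
    · convert convex_poly V ha.1 hb.1 hr hs hrs using 1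
      funext j
      simp only [Pi.add_apply, Pi.smul_apply, smul_eq_mul]
      linear_combination -(castVec x j) * hrs
    · convert convex_poly V ha.2 hb.2 hr hs hrs using 1
      funext j
      simp only [Pi.add_apply, Pi.smul_apply, Pi.sub_apply, smul_eq_mul]
      linear_combination -(castVec x j) * hrs
  have hsub : hensleyConst n k • ((fun z => z + castVec x) ⁻¹' poly V) ⊆ S := by
    rintro _ ⟨z, hz : z + castVec x ∈ poly V, rfl⟩
    rw [hS]
    refine ⟨?_, ?_⟩
    · convert convex_poly V (interior_subset hx) hz (sub_nonneg.2 (hensleyConst_le_one n k))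
        hc.le (sub_add_cancel _ _) using 1
      funext j
      simp only [Pi.add_apply, Pi.smul_apply, smul_eq_mul]
      ring
    · convert exists_reflected hk hx hz using 1
      funext j
      simp only [Pi.add_apply, Pi.smul_apply, Pi.sub_apply, smul_eq_mul]
      ring
  have hvol : ENNReal.ofReal (hensleyConst n k ^ n) * volume (poly V) ≤ volume S := by
    refine le_of_eq_of_le ?_ (measure_mono hsub)
    rw [Measure.addHaar_smul_of_nonneg volume hc.le, measure_preimage_add_right,
      Module.finrank_fin_fun]
  have hint : volume S ≤ volume (interior S) := by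
    refine le_trans (measure_mono (t := interior S ∪ frontier S) fun z hz => ?_) ?_
    · by_cases h : z ∈ interior S
      · exact Or.inl h
      · exact Or.inr ⟨subset_closure hz, h⟩
    · refine (measure_union_le _ _).trans ?_
      rw [hSc.addHaar_frontier volume, add_zero]
  have hmink : volume S ≤ ENNReal.ofReal ((2 * (k : ℝ)) ^ n) := by
    by_contra! hlt
    have hsymm : ∀ z ∈ interior S, -z ∈ interior S := fun z hz => by
      refine interior_maximal (t := -interior S) (fun a ha => ?_) isOpen_interior.neg
        (by simpa using hz)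
      have h := interior_subset (Set.mem_neg.1 ha)
      rw [hS] at h ⊢
      exact ⟨by simpa [sub_eq_add_neg] using h.2, by simpa [sub_eq_add_neg] using h.1⟩
    obtain ⟨z, hz0, hz⟩ := Summary.minkowski_hlawka_converse (S := (k : ℝ)⁻¹ • interior S)
      (hSc.interior.smul _)
      (fun a ha => by
        obtain ⟨b, hb, rfl⟩ := ha
        exact ⟨-b, hsymm b hb, smul_neg _ _⟩)
      (by
        rw [Measure.addHaar_smul_of_nonneg volume (inv_nonneg.2 hk'.le), Module.finrank_fin_fun]
        calc (2 : ENNReal) ^ n =
            ENNReal.ofReal ((k : ℝ)⁻¹ ^ n) * ENNReal.ofReal ((2 * k : ℝ) ^ n) := by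
              rw [← ENNReal.ofReal_mul (by positivity), ← mul_pow,
                show (k : ℝ)⁻¹ * (2 * k) = 2 by field_simp, ENNReal.ofReal_pow (by norm_num),
                ENNReal.ofReal_ofNat]
          _ < ENNReal.ofReal ((k : ℝ)⁻¹ ^ n) * volume (interior S) :=
              (ENNReal.mul_lt_mul_iff_right (ENNReal.ofReal_pos.2 (by positivity)).ne'
                ENNReal.ofReal_ne_top).2 (hlt.trans_le hint))
      1 (by simp)
    obtain ⟨b, hb, hbz⟩ := hz
    rw [one_mulVec] at hbz
    have h0 : (0 : Fin n → ℝ) ∈ interior S := by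
      have h := hSc.interior hb (hsymm b hb) (show (0 : ℝ) ≤ 1 / 2 by norm_num)
        (show (0 : ℝ) ≤ 1 / 2 by norm_num) (by norm_num)
      simpa using h
    have hjz : ∀ j : ℕ, j ≤ k → x + (j : ℤ) • z ∈ interiorPts V := fun j hj => by
      have hmem : ((j : ℝ) / k) • b + (1 - (j : ℝ) / k) • (0 : Fin n → ℝ) ∈ interior S :=
        hSc.interior hb h0 (by positivity)
          (sub_nonneg.2 ((div_le_one hk').2 (Nat.cast_le.2 hj))) (by ring)
      rw [smul_zero, add_zero] at hmem
      show castVec (x + (j : ℤ) • z) ∈ interior (poly V)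
      have e : castVec (x + (j : ℤ) • z) = castVec x + ((j : ℝ) / k) • b := by
        funext i
        have := congrFun hbz i
        simp only [Pi.smul_apply, smul_eq_mul] at this
        simp only [castVec, Pi.add_apply, Pi.smul_apply, smul_eq_mul, Int.cast_add, Int.cast_mul,
          Int.cast_natCast]
        rw [← this]
        ring
      rw [e]
      refine interior_maximal (t := (fun a => castVec x + a) '' interior S) ?_
        ((Homeomorph.addLeft (castVec x)).isOpenMap _ isOpen_interior) ⟨_, hmem, rfl⟩
      rintro _ ⟨a, ha, rfl⟩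
      have h := interior_subset ha
      rw [hS] at h
      exact h.1
    have hsub' : (fun j : ℕ => x + (j : ℤ) • z) '' ↑(Finset.range (k + 1)) ⊆ interiorPts V := by
      rintro _ ⟨j, hj, rfl⟩
      exact hjz j (Nat.lt_succ_iff.1 (Finset.mem_range.1 hj))
    have h := (Set.ncard_le_ncard hsub' (finite_interiorPts V)).trans hk
    rw [Set.ncard_image_of_injective _ (fun a b hab => by
        have := smul_left_injective ℤ hz0 (add_left_cancel hab)
        exact_mod_cast this), Set.ncard_coe_finset, Finset.card_range] at h
    omega
  have h := ENNReal.toReal_mono ENNReal.ofReal_ne_top (hvol.trans hmink)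
  rw [ENNReal.toReal_mul, ENNReal.toReal_ofReal (by positivity),
    ENNReal.toReal_ofReal (by positivity)] at h
  rw [div_pow, le_div_iff₀ (pow_pos hc n), mul_comm]
  exact h

end FA.LatticePolytopes

end
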